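/-
S41lib / IH / Main (helper7): the Ihara step of level raising.

INPUT: the congruence-subgroup brick `CSPBrick` (TREE gluing + CSP, packaged by the CSP block):
two parabolic classes `φ₁, φ₂ : Γ₀(N) → 𝔽_p` with `res φ₁ + deg φ₂ = 0` on `Γ₀(N q)` vanish on
`Γ₁(N)`.
OUTPUT: `ihara` — if `a₁, a₂ ∈ Hom_par(Γ₀(N), ℤ)` satisfy `res a₁ + deg a₂ ∈ p · Hom(Γ₀(N q), ℤ)`,
then `(T_ℓ - (ℓ + 1)) a_i ∈ p · Hom_par(Γ₀(N), ℤ)` for every prime `ℓ ∤ N`.
This is the hypothesis `hIhara` of `SK.level_raising_family`.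
-/
import Mathlib
import Fermat.Agent.S41lib.HC.BridgeMain
import Fermat.Agent.S16lib.LH.Eigen

set_option autoImplicit false
set_option linter.unusedSectionVars false

noncomputable section

namespace Fermat.Agent.S41lib.IH

open CongruenceSubgroup Matrix.SpecialLinearGroup ModularCurve.Period
open Fermat.Agent.S16lib.LH Fermat.Agent.S41lib.HC
open scoped MatrixGroups

variable {N : ℕ}

/-- every unit of `ZMod N` is the lower right entry of an element of `Γ₀(N)` -/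
theorem exists_gamma0_of_isUnit [NeZero N] (u : ZMod N) (hu : IsUnit u) :
    ∃ g : ↥(Gamma0 N), Gamma0Map N g = u := by
  have hcop : Nat.Coprime u.val N := (ZMod.isUnit_iff_coprime u.val N).mp (by
    rwa [ZMod.natCast_zmod_val])
  have hc : IsCoprime ((u.val : ℕ) : ℤ) (N : ℤ) := Nat.isCoprime_iff_coprime.mpr hcop
  obtain ⟨a, b, hab⟩ := hc
  -- a * d + b * N = 1 ; matrix (a, -b; N, d)
  let M : Matrix (Fin 2) (Fin 2) ℤ := !![a, -b; (N : ℤ), (u.val : ℤ)]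
  have hdet : M.det = 1 := by
    rw [Matrix.det_fin_two_of]
    linear_combination hab
  let g : SL(2, ℤ) := ⟨M, hdet⟩
  have hg : g ∈ Gamma0 N := by
    rw [Gamma0_mem]
    show ((M 1 0 : ℤ) : ZMod N) = 0
    simp [M]
  refine ⟨⟨g, hg⟩, ?_⟩
  show ((M 1 1 : ℤ) : ZMod N) = u
  simp [M]

variable {A : Type*} [AddCommGroup A]

/-- a homomorphism `Γ₀(N) → A` killing `Γ₁(N)` is an Eisenstein eigenvector of `T_ℓ` -/
theorem heckeT_eq_smul_of_kills_Gamma1 [NeZero N] {ℓ : ℕ} [Fact ℓ.Prime] (hℓN : ¬ ℓ ∣ N)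
    (φ : H (Gamma0 N) A)
    (hφ : ∀ g : ↥(Gamma0 N), Gamma0Map N g = 1 → φ (Additive.ofMul g) = 0) :
    heckeT hℓN A φ = (ℓ + 1) • φ := by
  classical
  -- `φ g` only depends on `Gamma0Map N g`
  have hdep : ∀ g g' : ↥(Gamma0 N), Gamma0Map N g = Gamma0Map N g' →
      φ (Additive.ofMul g) = φ (Additive.ofMul g') := by
    intro g g' hgg'
    have h1 : Gamma0Map N (g * g'⁻¹) = 1 := by
      rw [map_mul, hgg']
      have hu := isUnit_gamma0Map g'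
      have : Gamma0Map N g' * Gamma0Map N g'⁻¹ = 1 := by
        rw [← map_mul, mul_inv_cancel, map_one]
      exact this
    have h2 := hφ _ h1
    rw [ofMul_mul, ofMul_inv, map_add, map_neg] at h2
    exact sub_eq_zero.mp (by rw [sub_eq_add_neg]; exact h2)
  let κ : ZMod N → A := fun x =>
    if h : ∃ g : ↥(Gamma0 N), Gamma0Map N g = x then φ (Additive.ofMul h.choose) else 0
  have hκg : ∀ g : ↥(Gamma0 N), κ (Gamma0Map N g) = φ (Additive.ofMul g) := by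
    intro g
    have h : ∃ g' : ↥(Gamma0 N), Gamma0Map N g' = Gamma0Map N g := ⟨g, rfl⟩
    show (if h : ∃ g' : ↥(Gamma0 N), Gamma0Map N g' = Gamma0Map N g
      then φ (Additive.ofMul h.choose) else 0) = _
    rw [dif_pos h]
    exact hdep _ _ h.choose_spec
  have hκ : ∀ x y : ZMod N, IsUnit x → IsUnit y → κ (x * y) = κ x + κ y := by
    intro x y hx hy
    obtain ⟨gx, rfl⟩ := exists_gamma0_of_isUnit x hx
    obtain ⟨gy, rfl⟩ := exists_gamma0_of_isUnit y hy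
    rw [← map_mul, hκg, hκg, hκg, ofMul_mul, map_add]
  refine AddMonoidHom.ext fun γ' => ?_
  obtain ⟨γ, rfl⟩ := Additive.ofMul.surjective γ'
  rw [heckeT_apply]
  have := sum_tCoc_char hℓN κ hκ γ
  simp only [hκg] at this
  rw [this]
  rfl

section Brick

variable [NeZero N] {q : ℕ} [Fact q.Prime] (hqN : ¬ q ∣ N)

/-- The congruence-subgroup brick in the shape consumed here (to be supplied by TREE + CSP). -/
def CSPBrick (p : ℕ) : Prop :=
  ∀ φ₁ φ₂ : H (Gamma0 N) (ZMod p), IsParabolicHom (Gamma0 N) φ₁ → IsParabolicHom (Gamma0 N) φ₂ →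
    res N q (ZMod p) φ₁ + deg hqN (ZMod p) φ₂ = 0 →
    (∀ g : ↥(Gamma0 N), Gamma0Map N g = 1 → φ₁ (Additive.ofMul g) = 0) ∧
    (∀ g : ↥(Gamma0 N), Gamma0Map N g = 1 → φ₂ (Additive.ofMul g) = 0)

/-- divide a `ℤ`-valued homomorphism whose reduction mod `p` vanishes by `p` -/
theorem exists_eq_smul_of_coeff_eq_zero {p : ℕ} [Fact p.Prime] (Γ : Subgroup SL(2, ℤ))
    (ψ : H Γ ℤ) (hψ : coeff Γ (Int.castAddHom (ZMod p)) ψ = 0) :
    ∃ ψ' : H Γ ℤ, ψ = (p : ℤ) • ψ' := by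
  have hp0 : (p : ℤ) ≠ 0 := by exact_mod_cast (Fact.out : p.Prime).ne_zero
  have hdvd : ∀ γ : Additive Γ, (p : ℤ) ∣ ψ γ := by
    intro γ
    have h := congrArg (fun F : H Γ (ZMod p) => F γ) hψ
    simp only [coeff_apply, AddMonoidHom.zero_apply] at h
    exact (ZMod.intCast_zmod_eq_zero_iff_dvd _ p).mp h
  refine ⟨{ toFun := fun γ => ψ γ / (p : ℤ), map_zero' := by simp, map_add' := ?_ }, ?_⟩
  · intro γ δ
    rw [map_add, Int.add_ediv_of_dvd_left (hdvd γ)]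
  · refine AddMonoidHom.ext fun γ => ?_
    show ψ γ = (p : ℤ) • (ψ γ / (p : ℤ))
    rw [smul_eq_mul, Int.mul_ediv_cancel' (hdvd γ)]

theorem isParabolicHom_of_smul {p : ℕ} [Fact p.Prime] (Γ : Subgroup SL(2, ℤ)) (ψ' : H Γ ℤ)
    (h : IsParabolicHom Γ ((p : ℤ) • ψ')) : IsParabolicHom Γ ψ' := by
  have hp0 : (p : ℤ) ≠ 0 := by exact_mod_cast (Fact.out : p.Prime).ne_zero
  intro γ hγ
  have := h γ hγ
  rw [AddMonoidHom.smul_apply, smul_eq_mul] at this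
  exact (mul_eq_zero.mp this).resolve_left hp0

/-- **Ihara's lemma** in the form needed by `SK.level_raising_family`. -/
theorem ihara {p ℓ : ℕ} [Fact p.Prime] [Fact ℓ.Prime] (hℓN : ¬ ℓ ∣ N)
    (hcsp : CSPBrick (N := N) hqN p)
    (a₁ a₂ : H (Gamma0 N) ℤ) (h₁ : IsParabolicHom (Gamma0 N) a₁) (h₂ : IsParabolicHom (Gamma0 N) a₂)
    (hker : ∃ b : H (Gamma0 (N * q)) ℤ, res N q ℤ a₁ + deg hqN ℤ a₂ = (p : ℤ) • b) :
    (∃ a' : H (Gamma0 N) ℤ, IsParabolicHom (Gamma0 N) a' ∧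
        heckeT hℓN ℤ a₁ - ((ℓ : ℤ) + 1) • a₁ = (p : ℤ) • a') ∧
    (∃ a' : H (Gamma0 N) ℤ, IsParabolicHom (Gamma0 N) a' ∧
        heckeT hℓN ℤ a₂ - ((ℓ : ℤ) + 1) • a₂ = (p : ℤ) • a') := by
  obtain ⟨b, hb⟩ := hker
  set j : ℤ →+ ZMod p := Int.castAddHom (ZMod p) with hj
  have hred : res N q (ZMod p) (coeff _ j a₁) + deg hqN (ZMod p) (coeff _ j a₂) = 0 := by
    rw [res_coeff, deg_coeff, ← map_add, hb]
    refine AddMonoidHom.ext fun γ => ?_
    simp [hj]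
  obtain ⟨hk₁, hk₂⟩ := hcsp (coeff _ j a₁) (coeff _ j a₂) (coeff_isParabolicHom _ j h₁)
    (coeff_isParabolicHom _ j h₂) hred
  have key : ∀ a : H (Gamma0 N) ℤ, IsParabolicHom (Gamma0 N) a →
      (∀ g : ↥(Gamma0 N), Gamma0Map N g = 1 → coeff _ j a (Additive.ofMul g) = 0) →
      ∃ a' : H (Gamma0 N) ℤ, IsParabolicHom (Gamma0 N) a' ∧
        heckeT hℓN ℤ a - ((ℓ : ℤ) + 1) • a = (p : ℤ) • a' := by
    intro a ha hk
    have hT := heckeT_eq_smul_of_kills_Gamma1 hℓN (coeff _ j a) hk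
    have h0 : coeff (Gamma0 N) j (heckeT hℓN ℤ a - ((ℓ : ℤ) + 1) • a) = 0 := by
      rw [map_sub, ← heckeT_coeff, hT, map_zsmul]
      have hcast : ((ℓ : ℤ) + 1) = ((ℓ + 1 : ℕ) : ℤ) := by push_cast; ring
      rw [hcast, natCast_zsmul, sub_self]
    obtain ⟨a', ha'⟩ := exists_eq_smul_of_coeff_eq_zero (Gamma0 N) _ h0
    refine ⟨a', ?_, ha'⟩
    apply isParabolicHom_of_smul (p := p)
    rw [← ha']
    intro γ hγ
    rw [AddMonoidHom.sub_apply, AddMonoidHom.smul_apply, heckeT_isParabolicHom hℓN ha γ hγ,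
      ha γ hγ]
    simp
  exact ⟨key a₁ h₁ hk₁, key a₂ h₂ hk₂⟩

end Brick

end Fermat.Agent.S41lib.IH
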